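/-
Fermat/Agent/MAZ/TorsCmp47/CurveHyp.lean  (helper47) -- MAZ, brick T1B-U6 TORS-CMP, part (T2)(b).

`CurveHyp (c0.baseChange Ω)` (helper73's `Jac/AbelJacobi73/Riemann.CurveHyp`: charts not fields, closed
points rational, finite cohomology of lines) for the generic fibre over an ALGEBRAICALLY CLOSED field `Ω`
of a two-chart hub:

* `curveHyp_of_finiteProjOverLine` : ANY `c0 : TwoChart W B0 B1 B01` which is finite projective over the
  line, `Ω` an algebraically closed field over `W`, the two base-changed charts not fields;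
* `curveHyp_hub` : hub of subalgebras of a function field `F / K`, `K = Frac W` (vocabulary of helper1's
  `T1B/DescSep1/HubFinalGen`), `Ω ⊇ K` arbitrary algebraically closed (e.g. `Ω = ℚ̄_p`, `K` a number field);
* `curveHyp_nodalChart` : the NODAL two-chart model `NodalFacts23.nodalChart M` of T1B;
* `curveHyp_nodalChart_of_model` : the same with `FiniteProjOverLine` discharged by helper11's
  `Toric11.nodal_finiteProjOverLine` (`W` a DVR with uniformiser `π`).
The companion instances `IsDedekindDomain (Ω ⊗[W] B0)`, `IsDedekindDomain (Ω ⊗[W] B1)`,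
`IsDomain (Ω ⊗[W] (B0 ⊔ B1))` are helper1's `DescSep1.Gen.isDedekindDomain_nodalChart0/1`,
`DescSep1.Gen.isDomain_nodalOverlap` (they need the expansion `e : F →+* K((q))`).
-/
import Mathlib
import Fermat.Agent.T1B.DescSep1.NodalModelGen
import Fermat.Agent.T1B.Toric11.NodalHyps
import Fermat.Agent.Jac.AbelJacobi73.Riemann
import Fermat.Agent.Jac.CurveHyp80.Algebra
import Fermat.Agent.Jac.Cover12.FieldCover
import Fermat.Agent.Jac.BaseChange75.Rings

set_option autoImplicit false
set_option linter.unusedSectionVars false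
set_option linter.unusedVariables false
set_option linter.style.haveILetI false

open TensorProduct

namespace Fermat.Agent.MAZ.TorsCmp47

open Fermat.Agent.Jac Fermat.Agent.Jac.AbelJacobi73 Fermat.Agent.X0.FF
open Fermat.Agent.T1B.NodalFacts23 Fermat.Agent.ES.N34.NodalCore13
open Fermat.Agent.T1.Coh60 (algebra0 algebra1 isScalarTower0 isScalarTower1)
open Fermat.Agent.Jac.BaseChange75
open scoped Fermat.Agent.Jac.BaseChange75

universe u

/-! ### Any two-chart ring which is finite projective over the line -/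

section General

variable {W B0 B1 B01 : Type u} [CommRing W] [CommRing B0] [CommRing B1] [CommRing B01]
  [Algebra W B0] [Algebra W B1] [Algebra W B01] [Algebra B0 B01] [Algebra B1 B01]
  [IsScalarTower W B0 B01] [IsScalarTower W B1 B01]

/-- **`CurveHyp` of the generic fibre over an algebraically closed field**, from finiteness and
projectivity over the line (the two charts not being fields is an input here). -/
theorem curveHyp_of_finiteProjOverLine (c0 : TwoChart W B0 B1 B01) (hfp : c0.FiniteProjOverLine)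
    (Ω : Type u) [Field Ω] [IsAlgClosed Ω] [Algebra W Ω]
    (hnf0 : ¬ IsField (Ω ⊗[W] B0)) (hnf1 : ¬ IsField (Ω ⊗[W] B1)) :
    CurveHyp (c0.baseChange Ω) := by
  have hfpΩ : (c0.baseChange Ω).FiniteProjOverLine := hfp.baseChange Ω
  haveI : Algebra.FiniteType Ω (Ω ⊗[W] B0) :=
    haveI := hfpΩ.fin0
    CurveHyp80.finiteType (k := Ω) (c0.baseChange Ω).t
  haveI : Algebra.FiniteType Ω (Ω ⊗[W] B1) :=
    haveI := hfpΩ.fin1
    CurveHyp80.finiteType (k := Ω) (c0.baseChange Ω).s
  exact
    { notField0 := hnf0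
      notField1 := hnf1
      rat0 := fun m hm => CurveHyp80.quotient_surjective m hm
      rat1 := fun m hm => CurveHyp80.quotient_surjective m hm
      finCoh := fun L hL => Cover12.FieldCover.finCoh_of_isLine (c0.baseChange Ω) hfpΩ hL }

end General

/-! ### A hub of subalgebras of a function field -/

section Hub

variable {W F : Type u} {K : Type*} [CommRing W] [IsDomain W] [Field K] [CharZero K]
  [Algebra W K] [IsFractionRing W K] [Field F] [Algebra K F] [Algebra W F] [IsScalarTower W K F]
  (B0 B1 B01 : Subalgebra W F) [Algebra ↥B0 ↥B01] [Algebra ↥B1 ↥B01]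
  [IsScalarTower W ↥B0 ↥B01] [IsScalarTower W ↥B1 ↥B01]

/-- **`CurveHyp` for the generic fibre over `Ω` of a hub of subalgebras of a function field** `F / K`,
`K = Frac W`, `Ω ⊇ K` algebraically closed. -/
theorem curveHyp_hub (c0 : TwoChart W ↥B0 ↥B1 ↥B01) (hfp : c0.FiniteProjOverLine)
    {t : F} (ht : IsGen K t) (ht0 : t ∈ B0) (ht1 : t⁻¹ ∈ B1)
    (intcl0 : ∀ x : F, IsIntegral B0 x → x ∈ B0)
    (int0 : ∀ x ∈ B0, IsIntegral (Algebra.adjoin W {t}) x)
    (intcl1 : ∀ x : F, IsIntegral B1 x → x ∈ B1)
    (int1 : ∀ x ∈ B1, IsIntegral (Algebra.adjoin W {t⁻¹}) x)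
    (Ω : Type u) [Field Ω] [IsAlgClosed Ω] [Algebra K Ω] [Algebra W Ω] [IsScalarTower W K Ω] :
    CurveHyp (c0.baseChange Ω) :=
  curveHyp_of_finiteProjOverLine c0 hfp Ω
    (Fermat.Agent.T1B.DescSep1.Gen.not_isField_chart0 (K := K) B0 Ω ht ht0 intcl0 int0)
    (Fermat.Agent.T1B.DescSep1.Gen.not_isField_chart1 (K := K) B1 Ω ht ht1 intcl1 int1)

end Hub

/-! ### The nodal two-chart model -/

section Nodal

variable {W F : Type u} {K : Type*} [CommRing W] [IsDomain W] [Field K] [CharZero K]
  [Algebra W K] [IsFractionRing W K] [Field F] [Algebra K F] [Algebra W F] [IsScalarTower W K F]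
  {π : W} {t : F} {B0 B1 : Subalgebra W F} {O1 O2 : ValuationSubring F}
  (Ω : Type u) [Field Ω] [IsAlgClosed Ω] [Algebra K Ω] [Algebra W Ω] [IsScalarTower W K Ω]

/-- **`CurveHyp` for the generic fibre over an algebraically closed `Ω ⊇ K = Frac W` of the nodal
two-chart model** (T1B's hub `c0 = nodalChart M`). -/
theorem curveHyp_nodalChart (M : NodalTwoChartModel W F π t B0 B1 O1 O2) (ht : IsGen K t)
    (hfp :
      letI := algebra0 B0 B1
      letI := algebra1 B0 B1
      haveI := isScalarTower0 B0 B1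
      haveI := isScalarTower1 B0 B1
      (nodalChart M).FiniteProjOverLine) :
    letI := algebra0 B0 B1
    letI := algebra1 B0 B1
    haveI := isScalarTower0 B0 B1
    haveI := isScalarTower1 B0 B1
    CurveHyp ((nodalChart M).baseChange Ω) := by
  letI := algebra0 B0 B1
  letI := algebra1 B0 B1
  haveI := isScalarTower0 B0 B1
  haveI := isScalarTower1 B0 B1
  exact curveHyp_hub (K := K) B0 B1 (B0 ⊔ B1) (nodalChart M) hfp ht M.t_mem M.tinv_mem
    M.intcl0 M.int0 M.intcl1 M.int1 Ω

/-- **`CurveHyp` for the nodal two-chart model over a DVR `W`**, with `FiniteProjOverLine` discharged by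
helper11's `Toric11.nodal_finiteProjOverLine`. -/
theorem curveHyp_nodalChart_of_model [IsDiscreteValuationRing W] (hπ : Irreducible π)
    (M : NodalTwoChartModel W F π t B0 B1 O1 O2) (ht : IsGen K t)
    (fin1 : ∃ (r : ℕ) (e : Fin r → F), (∀ i, e i ∈ B1) ∧
      ∀ x ∈ B1, ∃ P : Fin r → Polynomial W, x = ∑ i, Polynomial.aeval t⁻¹ (P i) * e i)
    (htr1 : Fermat.Agent.T1B.NodalCoh30.TransMod π O1 t)
    (htr2 : Fermat.Agent.T1B.NodalCoh30.TransMod π O2 t) :
    letI := algebra0 B0 B1
    letI := algebra1 B0 B1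
    haveI := isScalarTower0 B0 B1
    haveI := isScalarTower1 B0 B1
    CurveHyp ((nodalChart M).baseChange Ω) :=
  curveHyp_nodalChart (K := K) Ω M ht
    (Fermat.Agent.T1B.Toric11.nodal_finiteProjOverLine hπ M fin1 htr1 htr2)

end Nodal

end Fermat.Agent.MAZ.TorsCmp47
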